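/-
GATE-K / N7c K-CUSP (helper49), part 5 (abstract): NO GLUEING AT THE CUSPS.

Two reduction data `R₁, R₂` on `F / K` (the two Gauss valuations), a "cusp chart" `s` (`= t⁻¹`),
and a cusp-separating element `e` (regular over `s = 0` together with `1 - e`, `e ↦ 1` for `R₁`,
`e ↦ 0` for `R₂`).  Then the reduction of the cusp-side order
`{x | RegOver K s x, x ∈ Rw₁ ⊓ Rw₂}` is the FULL product of the two componentwise reductions:
`x = e x₁ + (1 - e) x₂`.
-/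
import Fermat.Agent.GJ.J1.Select

set_option autoImplicit false

noncomputable section

namespace Fermat.Agent.GK.CuspSep

open Fermat.Agent.GJ.J1 Fermat.Agent.GJ.J1.Disc Fermat.Agent.GJ.J1.Select

variable {K F k Ft₁ Ft₂ : Type*} [Field K] [Field F] [Algebra K F] [Field k]
  [Field Ft₁] [Algebra k Ft₁] [Field Ft₂] [Algebra k Ft₂]
  {R₁ : RedData K F k Ft₁} {R₂ : RedData K F k Ft₂}

/-- every element of the valuation ring has a reduction -/
theorem isRed_of_mem {Ft : Type*} [Field Ft] [Algebra k Ft] {R : RedData K F k Ft} {x : F}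
    (hx : x ∈ R.Rw) : R.IsRed x (R.red ⟨x, hx⟩) := ⟨hx, rfl⟩

/-- **glueing two componentwise lifts by the cusp-separating element** -/
theorem kcusp_glue {s e : F} (he : RegOver K s e) (he' : RegOver K s (1 - e))
    (he1 : R₁.IsRed e 1) (he2 : R₂.IsRed e 0) {y₁ : Ft₁} {y₂ : Ft₂} {x₁ x₂ : F}
    (hx1 : RegOver K s x₁) (hx1w : x₁ ∈ R₂.Rw) (hx1r : R₁.IsRed x₁ y₁)
    (hx2 : RegOver K s x₂) (hx2w : x₂ ∈ R₁.Rw) (hx2r : R₂.IsRed x₂ y₂) :
    RegOver K s (e * x₁ + (1 - e) * x₂) ∧ R₁.IsRed (e * x₁ + (1 - e) * x₂) y₁ ∧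
      R₂.IsRed (e * x₁ + (1 - e) * x₂) y₂ := by
  refine ⟨(he.mul hx1).add (he'.mul hx2), ?_, ?_⟩
  · have h1 := isRed_mul he1 hx1r
    have h2 := isRed_mul (isRed_sub (isRed_one R₁) he1) (isRed_of_mem hx2w)
    have := isRed_add h1 h2
    rwa [one_mul, sub_self, zero_mul, add_zero] at this
  · have h1 := isRed_mul he2 (isRed_of_mem hx1w)
    have h2 := isRed_mul (isRed_sub (isRed_one R₂) he2) hx2r
    have := isRed_add h1 h2
    rwa [zero_mul, sub_zero, one_mul, zero_add] at this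

/-- **K-CUSP**: componentwise lifting at the cusp chart implies lifting of pairs: the cusp-side
order of the two-valuation ring reduces ONTO the product of the two cusp-side orders. -/
theorem kcusp_surjective {s e : F} (he : RegOver K s e) (he' : RegOver K s (1 - e))
    (he1 : R₁.IsRed e 1) (he2 : R₂.IsRed e 0) (P₁ : Ft₁ → Prop) (P₂ : Ft₂ → Prop)
    (h1 : ∀ y : Ft₁, P₁ y → ∃ x : F, RegOver K s x ∧ x ∈ R₂.Rw ∧ R₁.IsRed x y)
    (h2 : ∀ y : Ft₂, P₂ y → ∃ x : F, RegOver K s x ∧ x ∈ R₁.Rw ∧ R₂.IsRed x y)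
    (y₁ : Ft₁) (y₂ : Ft₂) (hy1 : P₁ y₁) (hy2 : P₂ y₂) :
    ∃ x : F, RegOver K s x ∧ R₁.IsRed x y₁ ∧ R₂.IsRed x y₂ := by
  obtain ⟨x₁, hx1, hx1w, hx1r⟩ := h1 y₁ hy1
  obtain ⟨x₂, hx2, hx2w, hx2r⟩ := h2 y₂ hy2
  exact ⟨_, kcusp_glue he he' he1 he2 hx1 hx1w hx1r hx2 hx2w hx2r⟩

/-- the cusp-side order of the two-valuation ring contains `(1, 0)` in its reduction: it SPLITS -/
theorem kcusp_idempotent {s e : F} (he : RegOver K s e) (he1 : R₁.IsRed e 1)
    (he2 : R₂.IsRed e 0) :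
    ∃ x : F, RegOver K s x ∧ R₁.IsRed x 1 ∧ R₂.IsRed x 0 := ⟨e, he, he1, he2⟩

end Fermat.Agent.GK.CuspSep
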