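/-
GATE-K / N7c K-CUSP (helper49), part 1: the cusp dichotomy.

For a prime `q ∣ N` and every place `v` of `F_N / ℚ̄` over `j = ∞` (a cusp):
`ord_v (j_q) = q · ord_v (j)` (cusps "like ∞") or `ord_v (j) = q · ord_v (j_q)` (cusps "like 0"),
where `j_q = j(q^q)`.  Input: the cusp embeddings of T24 (`cuspSigma`, `hermiteSer_order`) and the
orbit lemma `Norm.fibre_orbits`.
-/
import Fermat.Agent.S24_helper62.CuspFibre

set_option autoImplicit false

noncomputable section

namespace Fermat.Agent.GK.CuspSep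

open ModularCurve HahnSeries AlgebraicCurve IntermediateField
open Fermat.Agent.S24 Fermat.Agent.S28 Fermat.Agent.S28.CuspExp Fermat.Agent.S24_helper62
open Fermat.Agent.S24_helper76.CuspOrbit Fermat.Agent.S28.Assemble
open scoped MatrixGroups

variable (N : ℕ) [NeZero N]

/-- **every place over `j = ∞` is induced by a cusp embedding**: the `t`-adic order of
`cuspSigma N i f` is a positive multiple of `ord_w f`. -/
theorem exists_cuspSigma_of_place (w : Place Kbar (FN N)) (hw : 0 < w.ord (jF N)⁻¹) :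
    ∃ (i : I0 N) (m : ℤ), 0 < m ∧
      ∀ f : FN N, f ≠ 0 → (cuspSigma N i f).order = m * w.ord f := by
  have hfd : FiniteDimensional Kbar⟮jF N⟯ (FN N) := (m9 N).2.1
  have hx := (m9 N).1
  have hxi : Transcendental Kbar (jF N)⁻¹ := Norm.transcendental_inv hx
  have hk : Kbar⟮jF N⟯ = Kbar⟮(jF N)⁻¹⟯ := (Norm.adjoin_simple_inv (jF N)).symm
  have hζ : IsPrimitiveRoot (zetaBar N)⁻¹ N := (zetaBar_isPrimitiveRoot N).inv
  have hfd' : FiniteDimensional Kbar⟮(jF N)⁻¹⟯ (FN N) := hk ▸ hfd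
  obtain ⟨-, -, -, hpl⟩ := Norm.fibre_orbits (jF N)⁻¹ hxi Kbar⟮jF N⟯ hk ModularGroup.T
    (cuspData (cuspSigma_jF N))
    (hnorm_cusp (cuspSigma_jF N) (cuspSigma_injective N) (cuspSigma_sym N))
    (hsymm_cusp (cuspSigma_jF N) ModularGroup.T (zetaBar N)⁻¹ (cuspSigma_T_smul_apply N))
    (hg_cusp (cuspSigma_jF N) (cuspSigma_injective N) ModularGroup.T (zetaBar N)⁻¹ hζ
      (cuspSigma_T_smul_apply N))
    (hdiv_cusp (cuspSigma_jF N) ModularGroup.T (zetaBar N)⁻¹ hζ (cuspSigma_T_smul_apply N))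
  obtain ⟨i, -, hm, hV⟩ := hpl ⟨w, hw⟩
  refine ⟨i, (cuspData (cuspSigma_jF N)).mult i, hm, fun f hf => ?_⟩
  have := hV f hf
  rwa [cuspData_V] at this

/-- the pole order of `j_d` at a cusp, in terms of the Hermite datum -/
theorem exists_ord_jdF (w : Place Kbar (FN N)) (hw : 0 < w.ord (jF N)⁻¹) :
    ∃ (i : I0 N) (m : ℤ), 0 < m ∧ m * w.ord (jF N) = -(N : ℤ) ∧
      ∀ (d : ℕ) [NeZero d] (hd : d ∣ N),
        m * w.ord (jdF N d hd) = -((herm N i ⟨d, hd⟩).expo N : ℤ) := by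
  obtain ⟨i, m, hm, hV⟩ := exists_cuspSigma_of_place N w hw
  have hN : 0 < N := NeZero.pos N
  refine ⟨i, m, hm, ?_, ?_⟩
  · rw [← hV (jF N) (jF_ne_zero N), cuspSigma_jF, order_qExpand_jqModC]
  · intro d _ hd
    have hne : jdF N d hd ≠ 0 := by
      intro h0
      have h1 := cuspSigma_jdF N i hd
      rw [h0, map_zero] at h1
      exact hermiteSer_ne_zero (zetaBar N) N hN hd (herm N i ⟨d, hd⟩) h1.symm
    rw [← hV (jdF N d hd) hne, cuspSigma_jdF, hermiteSer_order (zetaBar N) N hN hd]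

/-- **the cusp dichotomy** for a prime `q ∣ N`: at every place over `j = ∞` either
`ord (j_q) = q · ord (j)` or `ord (j) = q · ord (j_q)`. -/
theorem ord_jq_dichotomy {q : ℕ} [NeZero q] (hq : q.Prime) (hqN : q ∣ N)
    (w : Place Kbar (FN N)) (hw : w.ord (jF N) < 0) :
    w.ord (jdF N q hqN) = q * w.ord (jF N) ∨ w.ord (jF N) = q * w.ord (jdF N q hqN) := by
  have hj0 : jF N ≠ 0 := jF_ne_zero N
  have hw' : 0 < w.ord (jF N)⁻¹ := by
    rw [Place.ord_inv]
    omega
  obtain ⟨i, m, hm, h1, hd⟩ := exists_ord_jdF N w hw'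
  have h2 := hd q hqN
  set H := herm N i ⟨q, hqN⟩ with hH
  have hAq : H.An ∣ q := H.An_dvd hq.pos
  have hNe : (N : ℤ) = q * ((N / q : ℕ) : ℤ) := by
    exact_mod_cast (Nat.mul_div_cancel' hqN).symm
  have hexpo : (H.expo N : ℤ) = ((N / q : ℕ) : ℤ) * (H.An : ℤ) ^ 2 := by
    rw [HermiteData.expo]
    push_cast
    rfl
  rcases (Nat.dvd_prime hq).mp hAq with hA | hA
  · -- `A = 1`, a cusp like `0`
    right
    rw [hexpo, hA] at h2
    have h3 : m * w.ord (jF N) = m * (q * w.ord (jdF N q hqN)) := by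
      have : m * ((q : ℤ) * w.ord (jdF N q hqN)) = q * (m * w.ord (jdF N q hqN)) := by ring
      rw [this, h2, h1, hNe]
      push_cast
      ring
    exact mul_left_cancel₀ hm.ne' h3
  · -- `A = q`, a cusp like `∞`
    left
    rw [hexpo, hA] at h2
    have h3 : m * w.ord (jdF N q hqN) = m * (q * w.ord (jF N)) := by
      have : m * ((q : ℤ) * w.ord (jF N)) = q * (m * w.ord (jF N)) := by ring
      rw [this, h1, h2]
      conv_rhs => rw [hNe]
      ring
    exact mul_left_cancel₀ hm.ne' h3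

end Fermat.Agent.GK.CuspSep
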