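/-
GATE-K / N7c K-CUSP (helper49), part 2: the generators `j(q^d)` of `F_N` are integral over
`ℚ̄[j]` (from the symmetric-function property (C3) of the cusp embeddings), hence have no poles
outside the cusps.
-/
import Fermat.Agent.S24_helper62.CuspFibre
import Fermat.Agent.GJ.J1.Defs

set_option autoImplicit false

noncomputable section

namespace Fermat.Agent.GK.CuspSep

open ModularCurve HahnSeries AlgebraicCurve IntermediateField Polynomial
open Fermat.Agent.S24 Fermat.Agent.S28 Fermat.Agent.S24_helper62 Fermat.Agent.GJ.J1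

variable (N : ℕ) [NeZero N]

/-- polynomials in `j(t^N)` are expansions of polynomials in `j` -/
theorem exists_preimage_of_mem_adjoin (i₀ : I0 N) {y : LaurentSeries Kbar}
    (hy : y ∈ Algebra.adjoin Kbar {jqModC Kbar}) :
    ∃ s ∈ Algebra.adjoin Kbar {jF N}, cuspSigma N i₀ s = qExpand Kbar N y := by
  rw [Algebra.adjoin_singleton_eq_range_aeval] at hy
  obtain ⟨p, rfl⟩ := hy
  refine ⟨aeval (jF N) p, ?_, ?_⟩
  · rw [Algebra.adjoin_singleton_eq_range_aeval]
    exact ⟨p, rfl⟩
  · rw [← Polynomial.aeval_algHom_apply, cuspSigma_jF, ← qExpandAlgHomC_apply]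
    exact Polynomial.aeval_algHom_apply (qExpandAlgHomC Kbar N) (jqModC Kbar) p

/-- **the ring `ℚ̄[j(q^d) : d ∣ N]` is integral over `ℚ̄[j]`** -/
theorem regFin_of_mem_RN {a : FN N} (ha : a ∈ Degree.RN N) : RegFin Kbar (jF N) a := by
  classical
  let i₀ : I0 N := Degree.i0 N
  let S := Algebra.adjoin Kbar {jF N}
  let φ : S →+* LaurentSeries Kbar :=
    ((cuspSigma N i₀ : FN N →ₐ[Kbar] LaurentSeries Kbar) : FN N →+* LaurentSeries Kbar).comp
      (algebraMap S (FN N))
  set P : (LaurentSeries Kbar)[X] := ∏ q : I0 N, (X - Polynomial.C (cuspSigma N q a)) with hP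
  have hPmonic : P.Monic := monic_prod_of_monic _ _ fun q _ => monic_X_sub_C _
  have hlifts : P ∈ lifts φ := by
    rw [lifts_iff_coeff_lifts]
    intro m
    obtain ⟨y, hy, hym⟩ := cuspSigma_sym N a ha m
    obtain ⟨s, hs, hsy⟩ := exists_preimage_of_mem_adjoin N i₀ hy
    exact ⟨⟨s, hs⟩, by rw [← hym, ← hsy]; rfl⟩
  obtain ⟨p, hpmap, -, hpmonic⟩ := lifts_and_natDegree_eq_and_monic hlifts hPmonic
  refine ⟨p, hpmonic, ?_⟩
  have hinj : Function.Injective (cuspSigma N i₀) := (cuspSigma N i₀).toRingHom.injective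
  apply hinj
  rw [map_zero]
  have h1 : cuspSigma N i₀ (eval₂ (algebraMap S (FN N)) a p) =
      eval (cuspSigma N i₀ a) (p.map φ) := by
    rw [eval_map]
    exact Polynomial.hom_eval₂ p (algebraMap S (FN N))
      ((cuspSigma N i₀ : FN N →ₐ[Kbar] LaurentSeries Kbar) : FN N →+* LaurentSeries Kbar) a
  rw [h1, hpmap, hP, eval_prod]
  exact Finset.prod_eq_zero (Finset.mem_univ i₀) (by simp)

end Fermat.Agent.GK.CuspSep
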