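/-
GATE-K / N7c K-CUSP (helper49), part 3 (abstract): the cusp-separating element
`e = u' / (u + u')`, `u = j_q - j^q`, `u' = j - j_q^q`.

* valuations: at a place with `ord j < 0` and `ord j_q ∈ {q · ord j, ord j / q}` both `e` and
  `1 - e` are regular;
* reductions: for a reduction datum with `(j, j_q) ↦ (τ, τ^q)` we get `e ↦ 1`, for a datum with
  `(j, j_q) ↦ (τ^q, τ)` we get `e ↦ 0` (as soon as `τ ≠ τ^(q²)`).
-/
import Fermat.Agent.GJ.J1.Select
import Fermat.Agent.S24_helper38.OrdBasic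

set_option autoImplicit false

noncomputable section

namespace Fermat.Agent.GK.CuspSep

open AlgebraicCurve Fermat.Agent.GJ.J1 Fermat.Agent.S24_helper38

section Def

variable {F : Type*} [Field F]

/-- the cusp-separating element `(j - j_q^q) / ((j_q - j^q) + (j - j_q^q))` -/
def sepElt (q : ℕ) (j jq : F) : F := (j - jq ^ q) / ((jq - j ^ q) + (j - jq ^ q))

theorem one_sub_sepElt {q : ℕ} {j jq : F} (h : (jq - j ^ q) + (j - jq ^ q) ≠ 0) :
    1 - sepElt q j jq = (jq - j ^ q) / ((jq - j ^ q) + (j - jq ^ q)) := by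
  rw [sepElt]
  field_simp
  ring

end Def

section Ord

variable {K F : Type*} [Field K] [Field F] [Algebra K F] (v : Place K F)

theorem ord_div' {f g : F} (hf : f ≠ 0) (hg : g ≠ 0) : v.ord (f / g) = v.ord f - v.ord g := by
  rw [div_eq_mul_inv, v.ord_mul hf (inv_ne_zero hg), Place.ord_inv]
  ring

theorem ord_pow_nat (f : F) (n : ℕ) : v.ord (f ^ n) = n * v.ord f := by
  rw [← zpow_natCast, Place.ord_zpow]

/-- if `y` dominates `x` at `v` then `y / (x + y)` is a unit at `v` and `x / (x + y)` is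
regular. -/
theorem ord_dominant {x y : F} (hy : y ≠ 0) (h : x = 0 ∨ v.ord y < v.ord x) :
    x + y ≠ 0 ∧ v.ord (y / (x + y)) = 0 ∧ 0 ≤ v.ord (x / (x + y)) := by
  by_cases hx : x = 0
  · subst hx
    refine ⟨by simpa using hy, ?_, by simp⟩
    rw [zero_add, div_self hy, Place.ord_one]
  · have h' : v.ord y < v.ord x := h.resolve_left hx
    obtain ⟨hne, hord⟩ := ord_add_eq_of_lt v hy hx h'
    rw [add_comm] at hne hord
    refine ⟨hne, ?_, ?_⟩
    · rw [ord_div' v hy hne, hord, sub_self]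
    · rw [ord_div' v hx hne, hord]
      omega

/-- arithmetic: for `a < 0` and `q ≥ 2`: `q * (q * a) < q * a < a`. -/
theorem arith_aux {q a : ℤ} (hq : 2 ≤ q) (ha : a < 0) : q * a < a ∧ q * (q * a) < q * a := by
  have h1 : 0 ≤ (q - 2) * (-a) := mul_nonneg (by omega) (by omega)
  have h2 : q * a < a := by nlinarith
  have h3 : 0 ≤ (q - 2) * (-(q * a)) := mul_nonneg (by omega) (by nlinarith)
  exact ⟨h2, by nlinarith⟩

/-- **regularity of the cusp-separating element** at a place with `ord j < 0` where the cusp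
dichotomy holds. -/
theorem ord_sepElt_nonneg {q : ℕ} (hq : 2 ≤ q) {j jq : F} (hj : v.ord j < 0)
    (h : v.ord jq = q * v.ord j ∨ v.ord j = q * v.ord jq) :
    0 ≤ v.ord (sepElt q j jq) ∧ 0 ≤ v.ord (1 - sepElt q j jq) := by
  have hj0 : j ≠ 0 := by
    rintro rfl
    simp at hj
  have hq2 : (2 : ℤ) ≤ q := by exact_mod_cast hq
  rcases h with h | h
  · -- a cusp like `∞`: `u'` dominates
    obtain ⟨ha1, ha2⟩ := arith_aux hq2 hj
    have hb : v.ord jq < 0 := by rw [h]; omega
    have hjq0 : jq ≠ 0 := by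
      rintro rfl
      simp at hb
    have hX0 : -(jq ^ q) ≠ 0 := neg_ne_zero.mpr (pow_ne_zero _ hjq0)
    have hX : v.ord (-(jq ^ q)) = q * (q * v.ord j) := by rw [ord_neg, ord_pow_nat, h]
    obtain ⟨hu'0, hu'ord⟩ := ord_add_eq_of_lt v hX0 hj0 (by rw [hX]; omega)
    have hu'eq : j - jq ^ q = -(jq ^ q) + j := by ring
    have hdom : jq - j ^ q = 0 ∨ v.ord (j - jq ^ q) < v.ord (jq - j ^ q) := by
      by_cases hu0 : jq - j ^ q = 0
      · exact Or.inl hu0
      · right
        have hY0 : -(j ^ q) ≠ 0 := neg_ne_zero.mpr (pow_ne_zero _ hj0)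
        have hmin := min_ord_le_ord_add v hjq0 hY0 (by rwa [← sub_eq_add_neg])
        rw [← sub_eq_add_neg, ord_neg, ord_pow_nat, h, min_self] at hmin
        rw [hu'eq, hu'ord, hX]
        omega
    obtain ⟨hne, h1, h2⟩ := ord_dominant v (by rw [hu'eq]; exact hu'0) hdom
    refine ⟨?_, ?_⟩
    · rw [sepElt, h1]
    · rw [one_sub_sepElt hne]
      exact h2
  · -- a cusp like `0`: `u` dominates
    have hb : v.ord jq < 0 := by
      by_contra hb
      rw [not_lt] at hb
      have : 0 ≤ (q : ℤ) * v.ord jq := mul_nonneg (by omega) hb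
      omega
    obtain ⟨hb1, hb2⟩ := arith_aux hq2 hb
    have hjq0 : jq ≠ 0 := by
      rintro rfl
      simp at hb
    have hY0 : -(j ^ q) ≠ 0 := neg_ne_zero.mpr (pow_ne_zero _ hj0)
    have hY : v.ord (-(j ^ q)) = q * (q * v.ord jq) := by rw [ord_neg, ord_pow_nat, h]
    obtain ⟨hu0, huord⟩ := ord_add_eq_of_lt v hY0 hjq0 (by rw [hY]; omega)
    have hueq : jq - j ^ q = -(j ^ q) + jq := by ring
    have hdom : j - jq ^ q = 0 ∨ v.ord (jq - j ^ q) < v.ord (j - jq ^ q) := by
      by_cases hu0' : j - jq ^ q = 0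
      · exact Or.inl hu0'
      · right
        have hX0 : -(jq ^ q) ≠ 0 := neg_ne_zero.mpr (pow_ne_zero _ hjq0)
        have hmin := min_ord_le_ord_add v hj0 hX0 (by rwa [← sub_eq_add_neg])
        rw [← sub_eq_add_neg, ord_neg, ord_pow_nat, h, min_self] at hmin
        rw [hueq, huord, hY]
        omega
    obtain ⟨hne, h1, h2⟩ := ord_dominant v (by rw [hueq]; exact hu0) hdom
    rw [add_comm] at hne h1 h2
    refine ⟨?_, ?_⟩
    · rw [sepElt]
      exact h2
    · rw [one_sub_sepElt hne, h1]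

end Ord

section Red

open Fermat.Agent.GJ.J1.Disc Fermat.Agent.GJ.J1.Select

variable {K F k Ft : Type*} [Field K] [Field F] [Algebra K F] [Field k] [Field Ft] [Algebra k Ft]
  {R : RedData K F k Ft}

/-- on the component where `(j, j_q) ↦ (τ, τ^q)` the separating element reduces to `1` -/
theorem isRed_sepElt_one {q : ℕ} {j jq : F} {τ : Ft} (hj : R.IsRed j τ)
    (hjq : R.IsRed jq (τ ^ q)) (hτ : τ - (τ ^ q) ^ q ≠ 0) : R.IsRed (sepElt q j jq) 1 := by
  have hu : R.IsRed (jq - j ^ q) (τ ^ q - τ ^ q) := isRed_sub hjq (isRed_pow hj q)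
  have hu' : R.IsRed (j - jq ^ q) (τ - (τ ^ q) ^ q) := isRed_sub hj (isRed_pow hjq q)
  have hs : R.IsRed ((jq - j ^ q) + (j - jq ^ q)) (τ - (τ ^ q) ^ q) := by
    have := isRed_add hu hu'
    rwa [sub_self, zero_add] at this
  have := isRed_mul hu' (isRed_inv hs hτ)
  rwa [mul_inv_cancel₀ hτ, ← div_eq_mul_inv] at this

/-- on the component where `(j, j_q) ↦ (τ^q, τ)` the separating element reduces to `0` -/
theorem isRed_sepElt_zero {q : ℕ} {j jq : F} {τ : Ft} (hj : R.IsRed j (τ ^ q))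
    (hjq : R.IsRed jq τ) (hτ : τ - (τ ^ q) ^ q ≠ 0) : R.IsRed (sepElt q j jq) 0 := by
  have hu : R.IsRed (jq - j ^ q) (τ - (τ ^ q) ^ q) := isRed_sub hjq (isRed_pow hj q)
  have hu' : R.IsRed (j - jq ^ q) (τ ^ q - τ ^ q) := isRed_sub hj (isRed_pow hjq q)
  have hs : R.IsRed ((jq - j ^ q) + (j - jq ^ q)) (τ - (τ ^ q) ^ q) := by
    have := isRed_add hu hu'
    rwa [sub_self, add_zero] at this
  have := isRed_mul hu' (isRed_inv hs hτ)
  rwa [sub_self, zero_mul, ← div_eq_mul_inv] at this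

/-- a transcendental element is not fixed by `x ↦ (x^q)^q`, `q ≥ 2` -/
theorem sub_pow_pow_ne_zero {q : ℕ} (hq : 2 ≤ q) {τ : Ft} (hτ : Transcendental k τ) :
    τ - (τ ^ q) ^ q ≠ 0 := by
  intro h
  apply hτ
  refine ⟨Polynomial.X - (Polynomial.X ^ q) ^ q, ?_, by simpa using h⟩
  intro h0
  have h1 := congrArg (fun p : Polynomial k => p.coeff 1) h0
  have hqq : q * q ≠ 1 := by nlinarith
  simp only [← pow_mul, Polynomial.coeff_sub, Polynomial.coeff_X_one, Polynomial.coeff_X_pow,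
    Polynomial.coeff_zero] at h1
  rw [if_neg (Ne.symm hqq), sub_zero] at h1
  exact one_ne_zero h1

end Red

end Fermat.Agent.GK.CuspSep
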