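/-
GATE-K / N7c K-CUSP (helper49), part 4: poles of `j(q^d)`, and the regularity at ALL cusps of the
cusp-separating element of `F_N`, `N = q N'`.
-/
import Fermat.Agent.GK.CuspSep.Dichotomy
import Fermat.Agent.GK.CuspSep.IntegralRN
import Fermat.Agent.GK.CuspSep.SepElt
import Fermat.Agent.GJ.J1.PlaceLattice
import Fermat.Agent.GJ.J1.Val.GaussRedData

set_option autoImplicit false

noncomputable section

namespace Fermat.Agent.GK.CuspSep

open ModularCurve AlgebraicCurve IntermediateField
open Fermat.Agent.S24 Fermat.Agent.S24_helper62 Fermat.Agent.GJ.J1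
open Fermat.Agent.GJ.J1.PlaceLattice Fermat.Agent.S24_helper76.CuspOrbit

variable (N : ℕ) [NeZero N]

/-- `j(q^d)` is transcendental over `ℚ̄` -/
theorem transcendental_jdF (d : ℕ) [NeZero d] (hd : d ∣ N) :
    Transcendental Kbar (jdF N d hd) := by
  have h : Transcendental Kbar ((modularFunctionFieldBar N).val (jdF N d hd)) := by
    show Transcendental Kbar ((jdF N d hd : FN N) : LaurentSeries Kbar)
    rw [Degree.coe_jdF, Degree.jdSeries_eq]
    apply Val.transcendental_of_order_neg
    rw [order_qExpand_jqModC d Kbar]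
    have : 0 < d := NeZero.pos d
    omega
  intro halg
  exact h (IsAlgebraic.algHom (modularFunctionFieldBar N).val halg)

/-- the generators `j(q^d)` are regular wherever `j` is -/
theorem ord_jdF_nonneg (d : ℕ) [NeZero d] (hd : d ∣ N) (v : Place Kbar (FN N))
    (hv : 0 ≤ v.ord (jF N)) : 0 ≤ v.ord (jdF N d hd) := by
  haveI := isGen_jF N
  exact (regFin_iff_ord (jF N) (jF N) (jdF N d hd)).mp
    (regFin_of_mem_RN N (Degree.genSet_subset_RN N (Degree.jdF_mem_genSet N d hd))) v hv

variable {q : ℕ} [NeZero q] (hq : q.Prime) (hqN : q ∣ N)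

include hq in
/-- **`j_q` and `j` have the same poles** -/
theorem ord_jq_neg_iff (v : Place Kbar (FN N)) :
    v.ord (jdF N q hqN) < 0 ↔ v.ord (jF N) < 0 := by
  constructor
  · intro h
    by_contra h'
    rw [not_lt] at h'
    have := ord_jdF_nonneg N q hqN v h'
    omega
  · intro h
    have hq0 : (0 : ℤ) < q := by exact_mod_cast hq.pos
    rcases ord_jq_dichotomy N hq hqN v h with h1 | h1
    · rw [h1]
      exact mul_neg_of_pos_of_neg hq0 h
    · by_contra h'
      rw [not_lt] at h'
      have : 0 ≤ (q : ℤ) * v.ord (jdF N q hqN) := mul_nonneg hq0.le h'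
      omega

include hq in
/-- regularity at the poles of `j_q` = regularity at the poles of `j` (= at the cusps) -/
theorem regOver_inv_jq_iff (x : FN N) :
    RegOver Kbar (jdF N q hqN)⁻¹ x ↔ RegOver Kbar (jF N)⁻¹ x := by
  haveI := isGen_jF N
  have hj : Transcendental Kbar (jF N) := (isGen_jF N).transcendental
  have hjq : Transcendental Kbar (jdF N q hqN) := transcendental_jdF N q hqN
  rw [regOver_iff_ord (jF N) (transcendental_inv hjq),
    regOver_iff_ord (jF N) (transcendental_inv hj)]
  constructor
  · intro h v hv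
    apply h v
    rw [Place.ord_inv] at hv ⊢
    have := (ord_jq_neg_iff N hq hqN v).mpr (by omega)
    omega
  · intro h v hv
    apply h v
    rw [Place.ord_inv] at hv ⊢
    have := (ord_jq_neg_iff N hq hqN v).mp (by omega)
    omega

/-- the cusp-separating element of `F_N` -/
def sepF : FN N := sepElt q (jF N) (jdF N q hqN)

include hq in
/-- **the cusp-separating element and its complement are regular at all cusps** -/
theorem regOver_sepF :
    RegOver Kbar (jF N)⁻¹ (sepF N hqN) ∧ RegOver Kbar (jF N)⁻¹ (1 - sepF N hqN) := by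
  haveI := isGen_jF N
  have hj : Transcendental Kbar (jF N) := (isGen_jF N).transcendental
  rw [regOver_iff_ord (jF N) (transcendental_inv hj),
    regOver_iff_ord (jF N) (transcendental_inv hj)]
  have key : ∀ v : Place Kbar (FN N), 0 < v.ord (jF N)⁻¹ →
      0 ≤ v.ord (sepF N hqN) ∧ 0 ≤ v.ord (1 - sepF N hqN) := by
    intro v hv
    rw [Place.ord_inv] at hv
    have hv' : v.ord (jF N) < 0 := by omega
    exact ord_sepElt_nonneg v hq.two_le hv' (ord_jq_dichotomy N hq hqN v hv')
  exact ⟨fun v hv => (key v hv).1, fun v hv => (key v hv).2⟩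

end Fermat.Agent.GK.CuspSep
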