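/-
GATE-K / N7c K-CUSP (helper49), part 6: the CONCRETE witness.  `N = q N'`, `q ∥ N`, `A` a valuation
subring of `ℚ̄` over `q`, `w₁ = redDataBar N A`, `w₂ = w₁ ∘ W_q = redData2 N A h` (helper42).
With `τ := red₁ j`:
  `red₁ (j, j_q) = (τ, τ^q)`,   `red₂ (j, j_q) = (τ^q, τ)`,
hence the cusp-separating element `sepF` (regular at ALL cusps together with `1 - sepF`,
`Poles.regOver_sepF`) has `red₁ sepF = 1`, `red₂ sepF = 0`: the two components of the special
fibre do not meet over `j = ∞`.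
-/
import Fermat.Agent.GK.CuspSep.Poles
import Fermat.Agent.GK.CuspSep.KCusp
import Fermat.Agent.GK.AL.SecondVal
import Fermat.Agent.GJ.J1.Val.CharP
import Fermat.Agent.GJ.J1.Haupt.ChartRed
import Fermat.Agent.GJ.J3.QSeries

set_option autoImplicit false

noncomputable section

namespace Fermat.Agent.GK.CuspSep

open HahnSeries ModularCurve IsLocalRing
open Fermat.Agent.S24 Fermat.Agent.S24_helper62 Fermat.Agent.GJ.J1 Fermat.Agent.GJ.J1.Val
open Fermat.Agent.GJ.J1.Haupt Fermat.Agent.GK.AL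

variable {q : ℕ} (N : ℕ) [NeZero N] (A : ValuationSubring Kbar) (h : ExactDvd q N)

local notation "𝕜" => ResidueField A

/-- `τ = red₁ j`, the coordinate of the special fibre -/
def tauF : FresBar N A := (redDataBar N A).red ⟨jF N, jF_mem_Rw N A⟩

theorem coe_tauF : ((tauF N A : FresBar N A) : LaurentSeries 𝕜) = jqModC 𝕜 := coe_red_jF N A

theorem transcendental_tauF : Transcendental 𝕜 (tauF N A) := by
  apply Fres.transcendental_of_coe
  rw [coe_tauF]
  have := transcendental_qExpand_jqModC 𝕜 1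
  rwa [qExpand_one_apply] at this

/-- the index `q` -/
def idxQ : DivIdx N := ⟨q, h.dvd⟩

theorem swapIdx_idxOne : (swapIdx h (idxOne N)).1 = q := by
  have h1 : ¬ q ∣ (idxOne N).1 := by
    show ¬ q ∣ 1
    exact Nat.Prime.not_dvd_one h.prime
  rw [swapIdx_apply, swapFun_of_not_dvd h h1]
  show q * 1 = q
  rw [mul_one]

theorem swapIdx_idxQ : (swapIdx h (idxQ N h)).1 = 1 := by
  have h1 : q ∣ (idxQ N h).1 := dvd_rfl
  rw [swapIdx_apply, swapFun_of_dvd h h1]
  show q / q = 1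
  exact Nat.div_self h.pos

theorem jF_eq_gen' : jF N = gen N (idxOne N) := jF_eq_gen N

include h in
theorem neZero_q : NeZero q := ⟨h.pos.ne'⟩

omit [NeZero N] in
theorem qExpand_congr (κ : Type*) [Field κ] {d d' : ℕ} [NeZero d] [NeZero d'] (hdd : d = d')
    (f : LaurentSeries κ) : qExpand κ d f = qExpand κ d' f := by
  subst hdd
  rfl

theorem jq_eq_gen [NeZero q] : jdF N q h.dvd = gen N (idxQ N h) := (gen_eq_jdF (idxQ N h)).symm

/-- `red₁ j = τ` -/
theorem isRed1_jF : (redDataBar N A).IsRed (jF N) (tauF N A) := ⟨jF_mem_Rw N A, rfl⟩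

variable (hA : A.LiesOverPrime q)

include hA in
/-- `red₁ j_q = τ^q` (Kronecker's congruence) -/
theorem isRed1_jq [NeZero q] : (redDataBar N A).IsRed (jdF N q h.dvd) (tauF N A ^ q) := by
  haveI : Fact q.Prime := ⟨h.prime⟩
  haveI : CharP 𝕜 q := charP_residue A h.prime hA
  rw [jq_eq_gen N h]
  refine ⟨gen_mem_Rw1 N A _, ?_⟩
  apply Subtype.ext
  rw [coe_red1_gen]
  push_cast
  rw [coe_tauF]
  exact Fermat.Agent.GJ.J3.QS.qExpand_jqModC_char q

include hA in
/-- `red₂ j = τ^q` -/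
theorem isRed2_jF : (redData2 N A h).IsRed (jF N) (tauF N A ^ q) := by
  haveI : Fact q.Prime := ⟨h.prime⟩
  haveI : NeZero q := neZero_q (N := N) h
  haveI : CharP 𝕜 q := charP_residue A h.prime hA
  rw [jF_eq_gen' N]
  refine ⟨gen_mem_Rw2 N A h _, ?_⟩
  apply Subtype.ext
  rw [coe_red2_gen]
  push_cast
  rw [coe_tauF]
  have h1 : qExpand 𝕜 (swapIdx h (idxOne N)).1 (jqModC 𝕜) = qExpand 𝕜 q (jqModC 𝕜) :=
    qExpand_congr 𝕜 (swapIdx_idxOne N h) _
  rw [h1]
  exact Fermat.Agent.GJ.J3.QS.qExpand_jqModC_char q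

/-- `red₂ j_q = τ` -/
theorem isRed2_jq [NeZero q] : (redData2 N A h).IsRed (jdF N q h.dvd) (tauF N A) := by
  rw [jq_eq_gen N h]
  refine ⟨gen_mem_Rw2 N A h _, ?_⟩
  apply Subtype.ext
  rw [coe_red2_gen, coe_tauF]
  have h1 : qExpand 𝕜 (swapIdx h (idxQ N h)).1 (jqModC 𝕜) = qExpand 𝕜 1 (jqModC 𝕜) :=
    qExpand_congr 𝕜 (swapIdx_idxQ N h) _
  rw [h1, qExpand_one_apply]

include h in
theorem tauF_sub_ne_zero : tauF N A - (tauF N A ^ q) ^ q ≠ 0 :=
  sub_pow_pow_ne_zero h.prime.two_le (transcendental_tauF N A)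

include hA in
/-- **`red₁ sepF = 1`** -/
theorem isRed1_sepF [NeZero q] : (redDataBar N A).IsRed (sepF N h.dvd) 1 :=
  isRed_sepElt_one (isRed1_jF N A) (isRed1_jq N A h hA) (tauF_sub_ne_zero N A h)

include hA in
/-- **`red₂ sepF = 0`** -/
theorem isRed2_sepF [NeZero q] : (redData2 N A h).IsRed (sepF N h.dvd) 0 :=
  isRed_sepElt_zero (isRed2_jF N A h hA) (isRed2_jq N A h) (tauF_sub_ne_zero N A h)

end Fermat.Agent.GK.CuspSep
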