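/-
GATE-K / N7c K-CUSP (helper49), part 7: the K-CUSP element in the `RegFin` chart at infinity.
`e₀ := j_q / j^q ∈ F_N` is INTEGRAL over `ℚ̄[1/j]` (poles only at the zeros of `j`: `j_q` is integral
over `ℚ̄[j]` and `e₀` is regular at every cusp by the dichotomy), and
  `red₁ e₀ = 1`,   `red₂ e₀ = (1/τ)^(q²-1)`.
This is the element `e` of helper29's `PencilInf.hinf_of_hfin` (`e = (1, tt^(q²-1))`, `tt = 1/τ`).
-/
import Fermat.Agent.GK.CuspSep.Witness

set_option autoImplicit false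

noncomputable section

namespace Fermat.Agent.GK.CuspSep

open HahnSeries ModularCurve IsLocalRing AlgebraicCurve
open Fermat.Agent.S24 Fermat.Agent.S24_helper62 Fermat.Agent.GJ.J1 Fermat.Agent.GJ.J1.Val
open Fermat.Agent.GJ.J1.Haupt Fermat.Agent.GK.AL Fermat.Agent.GJ.J1.PlaceLattice

section Reg

variable (N : ℕ) [NeZero N] {q : ℕ} [NeZero q] (hq : q.Prime) (hqN : q ∣ N)

/-- `e₀ = j_q / j^q` -/
def e0F : FN N := jdF N q hqN * ((jF N)⁻¹) ^ q

include hq in
/-- **`e₀ = j_q / j^q` is integral over `ℚ̄[1/j]`** -/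
theorem regFin_e0F : RegFin Kbar (jF N)⁻¹ (e0F N hqN) := by
  haveI := isGen_jF N
  rw [regFin_iff_ord (jF N)]
  intro v hv
  rw [Place.ord_inv] at hv
  have hj0 : jF N ≠ 0 := fun h0 => (isGen_jF N).transcendental (h0 ▸ isAlgebraic_zero)
  have hq0 : jdF N q hqN ≠ 0 := fun h0 => transcendental_jdF N q hqN (h0 ▸ isAlgebraic_zero)
  have hord : v.ord (e0F N hqN) = v.ord (jdF N q hqN) - q * v.ord (jF N) := by
    unfold e0F
    rw [Place.ord_mul _ hq0 (pow_ne_zero _ (inv_ne_zero hj0)), Fermat.Agent.S24_helper38.ord_pow, Place.ord_inv]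
    ring
  rw [hord]
  have hq2 : (2 : ℤ) ≤ q := by exact_mod_cast hq.two_le
  rcases lt_or_eq_of_le (show v.ord (jF N) ≤ 0 by omega) with hlt | heq
  · rcases ord_jq_dichotomy N hq hqN v hlt with h1 | h1
    · rw [h1]; simp
    · -- `ord j = q * ord j_q`, `ord j_q < 0`
      have hneg : v.ord (jdF N q hqN) < 0 := by
        by_contra hcon
        rw [not_lt] at hcon
        have : 0 ≤ (q : ℤ) * v.ord (jdF N q hqN) := by positivity
        omega
      rw [h1]
      nlinarith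
  · have := ord_jdF_nonneg N q hqN v (by omega)
    rw [heq]
    simpa using this

end Reg

section Red

variable {q : ℕ} (N : ℕ) [NeZero N] [NeZero q] (A : ValuationSubring Kbar) (h : ExactDvd q N)
variable (hA : A.LiesOverPrime q)

local notation "𝕜" => ResidueField A

theorem tauF_ne_zero : tauF N A ≠ 0 := fun h0 =>
  transcendental_tauF N A (h0 ▸ isAlgebraic_zero)

/-- `red₁ (1/j) = 1/τ` -/
theorem isRed1_inv_jF : (redDataBar N A).IsRed (jF N)⁻¹ (tauF N A)⁻¹ :=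
  Select.isRed_inv (isRed1_jF N A) (tauF_ne_zero N A)

include hA in
/-- `red₂ (1/j) = (1/τ)^q` -/
theorem isRed2_inv_jF : (redData2 N A h).IsRed (jF N)⁻¹ ((tauF N A)⁻¹ ^ q) := by
  have := Select.isRed_inv (isRed2_jF N A h hA) (pow_ne_zero q (tauF_ne_zero N A))
  rwa [← inv_pow] at this

include hA in
/-- **`red₁ (j_q / j^q) = 1`** -/
theorem isRed1_e0F : (redDataBar N A).IsRed (e0F N h.dvd) 1 := by
  have h1 := Disc.isRed_mul (isRed1_jq N A h hA) (Disc.isRed_pow (isRed1_inv_jF N A) q)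
  have h2 : tauF N A ^ q * (tauF N A)⁻¹ ^ q = 1 := by
    rw [← mul_pow, mul_inv_cancel₀ (tauF_ne_zero N A), one_pow]
  rw [h2] at h1
  exact h1

include hA in
/-- **`red₂ (j_q / j^q) = (1/τ)^(q²-1)`** -/
theorem isRed2_e0F : (redData2 N A h).IsRed (e0F N h.dvd) ((tauF N A)⁻¹ ^ (q ^ 2 - 1)) := by
  have h1 := Disc.isRed_mul (isRed2_jq N A h) (Disc.isRed_pow (isRed2_inv_jF N A h hA) q)
  have hq1 : 1 ≤ q ^ 2 := Nat.one_le_pow _ _ h.pos
  have h2 : tauF N A * ((tauF N A)⁻¹ ^ q) ^ q = (tauF N A)⁻¹ ^ (q ^ 2 - 1) := by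
    have h3 : ((tauF N A)⁻¹ ^ q) ^ q = (tauF N A)⁻¹ ^ (q ^ 2 - 1) * (tauF N A)⁻¹ := by
      rw [← pow_mul, ← pow_succ, ← pow_two, Nat.sub_add_cancel hq1]
    rw [h3, mul_comm, mul_assoc, inv_mul_cancel₀ (tauF_ne_zero N A), mul_one]
  rw [h2] at h1
  exact h1

end Red

end Fermat.Agent.GK.CuspSep
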